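import Fermat.Agent.S18.T6466.CaseA
import Fermat.Agent.S18.T7709.Charts
import Fermat.Agent.S18.CH04582.UnbranchedMod
import Fermat.Agent.S18.HAUPT

/-!
# S18 / T (helper6466): CASE A of Theorem T, MODULAR form

`thmT_fin_of_two_dvd`, `thmT_fin_of_three_dvd`: the frozen statement `thmT_fin` (`T.lean`) at every
level `N` with `2 ∣ N` resp. `3 ∣ N` (any prime `ℓ ∤ N`; in particular `ℓ = 3` resp. `ℓ = 2`).

Assembly (no new mathematics):

* `caseA_generic` (`T6466/CaseA.lean`; uses `spec_laurent` of `TInt.lean` v0, acting architect helper2926);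
* the chart ring `chartRing ℓ A N {jFull N}` with `cstHom`, `genHom`, `redHom`, `redHom_ker`
  (`T7709/Inst.lean`, helper7709), and `exists_frac_fin` (`T7709/Plumb.lean`);
* RED (frozen `Red.lean`): R1, R5; `exists_fg_fin`, `intClosed_gen_fin` (`TInt.lean`);
* HAUPT (`HAUPT/P3.lean`, `HAUPT/P6.lean`): `t_r`, `1/t_r` are chart-integral at level `N` (`r ∣ N`),
  `j t₂² = (t₂+256)³`, `j t₃³ = (t₃+27)(t₃+243)³`;
* CH0 (D4) (`CH04582/UnbranchedMod.lean`, helper4582): the `t_r`-line has the single nonzero branch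
  value `t* = -64` resp. `-27`.
-/

set_option autoImplicit false
set_option synthInstance.maxHeartbeats 400000
set_option linter.unusedSectionVars false

noncomputable section

namespace Fermat.Agent.S18.T6466

open ModularCurve AlgebraicCurve ModularCurve.IgusaScheme IntermediateField Polynomial
open Fermat.Agent.S18.T7709

variable {ℓ : ℕ} [Fact ℓ.Prime] {A : ValuationSubring (AlgebraicClosure ℚ)} {N : ℕ} [NeZero N]

/-! ### The generic Case A on the finite modular chart -/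

set_option maxHeartbeats 1600000 in
/-- **Case A on the modular chart `fin`**, for an abstract Hauptmodul: a chart-integral unit `τ`
with `j τ^r = P(τ)` (`P` monic over `A`, `P(0)` a unit, `0 < r < deg P`) whose line has at most one
nonzero branch value.  Conclusion: the frozen statement `thmT_fin`. -/
theorem chart_caseA (hℓN : ¬ ℓ ∣ N) (hA : A.LiesOverPrime ℓ)
    {τ τi : LaurentSeries A} (hτ : IsIntFin ℓ A N τ) (hτi : IsIntFin ℓ A N τi)
    (hτu : τ * τi = 1)
    (P : A[X]) (hP : P.Monic) (r : ℕ) (hr0 : 0 < r) (hr : r < P.natDegree)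
    (hP0 : IsUnit (P.coeff 0))
    (hrel : jqModC A * τ ^ r = P.eval₂ (HahnSeries.C : A →+* LaurentSeries A) τ)
    (hbranch : ∀ t : Fb N, (t : LaurentSeries (AlgebraicClosure ℚ)) = coeffMap A.subtype τ →
      ∃ a₀ : A, ∀ a : A, (a : AlgebraicClosure ℚ) ≠ 0 → a ≠ a₀ →
        UnbranchedL (AlgebraicClosure ℚ) t (a : AlgebraicClosure ℚ))
    (f : Ft A N) (hf : IsIntegral (Algebra.adjoin (IsLocalRing.ResidueField A) {jt A N}) f) :
    ∃ y : LaurentSeries A, IsIntFin ℓ A N y ∧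
      coeffMap (IsLocalRing.residue A) y = (f : LaurentSeries (IsLocalRing.ResidueField A)) := by
  classical
  have hS' : ({jFull N} : Set ↥(modularFunctionFieldFull N)) ⊆ {jFull N, (jFull N)⁻¹} :=
    Set.singleton_subset_iff.mpr (Set.mem_insert _ _)
  have := isAlgClosed_residueField A
  have hξ : IsIntFin ℓ A N (jqModC A) := isIntFin_j ℓ A N
  have hgξ : genHom hℓN hA hS' ⟨jqModC A, hξ⟩ = jb N := Subtype.ext (coe_jb (A := A) (N := N)).symm
  have hrξ : redHom hℓN hA hS' ⟨jqModC A, hξ⟩ = jt A N :=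
    Subtype.ext (coe_jt (A := A) (N := N)).symm
  -- finite generation
  have hfg' : ∃ s : Finset (chartRing ℓ A N {jFull N}), ∀ y : chartRing ℓ A N {jFull N},
      ∃ p : chartRing ℓ A N {jFull N} → A[X],
        y = ∑ e ∈ s, (p e).eval₂ (cstHom ℓ A N {jFull N}) ⟨jqModC A, hξ⟩ * e := by
    obtain ⟨s₀, hs₀, h⟩ := exists_fg_fin (ℓ := ℓ) (A := A) (N := N) hℓN hA
    refine ⟨s₀.subtype (· ∈ chartRing ℓ A N {jFull N}), fun y => ?_⟩
    obtain ⟨p, hp⟩ := h y.1 y.2
    refine ⟨fun e => p e.1, Subtype.ext ?_⟩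
    have key : (chartRing ℓ A N {jFull N}).subtype
        (∑ e ∈ s₀.subtype (· ∈ chartRing ℓ A N {jFull N}),
          (p e.1).eval₂ (cstHom ℓ A N {jFull N}) ⟨jqModC A, hξ⟩ * e) =
        ∑ e ∈ s₀, (p e).eval₂ (HahnSeries.C : A →+* LaurentSeries A) (jqModC A) * e := by
      rw [map_sum]
      have h1 : ∀ e ∈ s₀.subtype (· ∈ chartRing ℓ A N {jFull N}),
          (chartRing ℓ A N {jFull N}).subtype
            ((p e.1).eval₂ (cstHom ℓ A N {jFull N}) ⟨jqModC A, hξ⟩ * e) =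
            (fun e : LaurentSeries A =>
              (p e).eval₂ (HahnSeries.C : A →+* LaurentSeries A) (jqModC A) * e) e.1 := by
        intro e _
        rw [map_mul, Polynomial.hom_eval₂]
        rfl
      have hs₀' : ∀ e ∈ s₀, e ∈ chartRing ℓ A N {jFull N} := hs₀
      rw [Finset.sum_congr rfl h1, Finset.sum_subtype_eq_sum_filter
        (fun e : LaurentSeries A =>
          (p e).eval₂ (HahnSeries.C : A →+* LaurentSeries A) (jqModC A) * e),
        Finset.filter_true_of_mem hs₀']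
    rw [hp]
    exact key.symm
  -- integral closure on the generic fibre
  have hint' : ∀ g : Fb N,
      IsIntegral (Algebra.adjoin (AlgebraicClosure ℚ) {genHom hℓN hA hS' ⟨jqModC A, hξ⟩}) g →
      ∃ (c : AlgebraicClosure ℚ) (y : chartRing ℓ A N {jFull N}),
        g = algebraMap (AlgebraicClosure ℚ) (Fb N) c * genHom hℓN hA hS' y := by
    intro g hg
    rw [hgξ] at hg
    obtain ⟨c, y, hy, e⟩ := intClosed_gen_fin (ℓ := ℓ) (A := A) hℓN hA g hg
    refine ⟨c, ⟨y, hy⟩, Subtype.ext ?_⟩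
    rw [e]
    show HahnSeries.C c * coeffMap A.subtype y =
      algebraMap (AlgebraicClosure ℚ) (LaurentSeries (AlgebraicClosure ℚ)) c *
        coeffMap A.subtype y
    rw [algebraMap_laurentSeries_eq_single]
    rfl
  -- fractions on the special fibre
  have hfrac' : ∀ g : Ft A N, ∃ y₁ y₂ : chartRing ℓ A N {jFull N},
      redHom hℓN hA hS' y₂ ≠ 0 ∧ g * redHom hℓN hA hS' y₂ = redHom hℓN hA hS' y₁ := by
    intro g
    obtain ⟨b₁, b₂, ⟨y₁, hy1, rfl⟩, ⟨y₂, hy2, rfl⟩, h0, he⟩ :=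
      exists_frac_fin (ℓ := ℓ) hℓN hA g.2
    exact ⟨⟨y₁, hy1⟩, ⟨y₂, hy2⟩, fun h => h0 (congrArg Subtype.val h), Subtype.ext he⟩
  -- the unit `τ`
  have hτunit : IsUnit (⟨τ, hτ⟩ : chartRing ℓ A N {jFull N}) :=
    IsUnit.of_mul_eq_one (⟨τi, hτi⟩ : chartRing ℓ A N {jFull N}) (Subtype.ext hτu)
  have hrel' : (⟨jqModC A, hξ⟩ : chartRing ℓ A N {jFull N}) * ⟨τ, hτ⟩ ^ r =
      P.eval₂ (cstHom ℓ A N {jFull N}) ⟨τ, hτ⟩ := by
    apply Subtype.ext
    have h2 : ((chartRing ℓ A N {jFull N}).subtype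
        (P.eval₂ (cstHom ℓ A N {jFull N}) ⟨τ, hτ⟩)) =
        P.eval₂ (HahnSeries.C : A →+* LaurentSeries A) τ := by
      rw [Polynomial.hom_eval₂]
      rfl
    exact hrel.trans h2.symm
  have hxL : Transcendental (AlgebraicClosure ℚ) (genHom hℓN hA hS' ⟨jqModC A, hξ⟩) := by
    rw [hgξ]; exact transcendental_jb
  have hxk : Transcendental (IsLocalRing.ResidueField A) (redHom hℓN hA hS' ⟨jqModC A, hξ⟩) := by
    rw [hrξ]; exact transcendental_jt hA
  have hFfin : FiniteDimensional (AlgebraicClosure ℚ)⟮genHom hℓN hA hS' ⟨jqModC A, hξ⟩⟯ (Fb N) := by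
    rw [hgξ]; exact finiteDimensional_jb
  have hEfin : FiniteDimensional
      (IsLocalRing.ResidueField A)⟮redHom hℓN hA hS' ⟨jqModC A, hξ⟩⟯ (Ft A N) := by
    rw [hrξ]; exact finiteDimensional_Ft hℓN hA
  have hEsep : Algebra.IsSeparable
      (IsLocalRing.ResidueField A)⟮redHom hℓN hA hS' ⟨jqModC A, hξ⟩⟯ (Ft A N) := by
    rw [hrξ]; exact isSeparable_Ft hℓN hA
  have hdeg : Module.finrank
      (IsLocalRing.ResidueField A)⟮redHom hℓN hA hS' ⟨jqModC A, hξ⟩⟯ (Ft A N) =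
      Module.finrank (AlgebraicClosure ℚ)⟮genHom hℓN hA hS' ⟨jqModC A, hξ⟩⟯ (Fb N) := by
    rw [hgξ, hrξ]; exact finrank_Ft hℓN hA
  have hf' : IsIntegral (Algebra.adjoin (IsLocalRing.ResidueField A)
      {redHom hℓN hA hS' ⟨jqModC A, hξ⟩}) f := by
    rw [hrξ]; exact hf
  obtain ⟨y, hy⟩ := caseA_generic A (cstHom ℓ A N {jFull N}) (genHom hℓN hA hS')
    (redHom hℓN hA hS') (genHom_injective hℓN hA hS') (genHom_cst hℓN hA hS')
    (redHom_cst hℓN hA hS') ⟨jqModC A, hξ⟩ hxL hxk hFfin hEfin hEsep hdeg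
    (redHom_ker hℓN hA (Or.inl rfl) hS') hfg' hint' hfrac'
    ⟨τ, hτ⟩ hτunit P hP r hr0 hr hP0 hrel' (hbranch _ rfl) f hf'
  exact ⟨y.1, y.2, congrArg Subtype.val hy⟩

/-! ### Units of `A` -/

/-- `ℓ = 0` in the residue field. -/
theorem residue_prime_eq_zero (hA : A.LiesOverPrime ℓ) :
    ((ℓ : ℕ) : IsLocalRing.ResidueField A) = 0 := by
  obtain ⟨hmem, hmax⟩ := (ValuationSubring.mem_nonunits_iff_exists_mem_maximalIdeal).mp hA
  have h1 := (IsLocalRing.residue_eq_zero_iff _).mpr hmax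
  have h2 : (⟨(ℓ : AlgebraicClosure ℚ), hmem⟩ : A) = ((ℓ : ℕ) : A) := Subtype.ext (by simp)
  rw [h2, map_natCast] at h1
  exact h1

/-- A natural number prime to `ℓ` is a unit of `A`. -/
theorem isUnit_natCast_of_coprime (hA : A.LiesOverPrime ℓ) (m : ℕ) (hm : Nat.Coprime m ℓ) :
    IsUnit ((m : ℕ) : A) := by
  rw [← IsLocalRing.residue_ne_zero_iff_isUnit, map_natCast]
  intro h
  have hgcd := Nat.gcd_eq_gcd_ab m ℓ
  rw [hm] at hgcd
  have h3 := congrArg (Int.cast : ℤ → IsLocalRing.ResidueField A) hgcd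
  push_cast at h3
  rw [h, residue_prime_eq_zero hA, zero_mul, zero_mul, add_zero] at h3
  exact one_ne_zero h3

/-! ### The Hauptmoduln as chart-integral series -/

/-- If the rational series `T ∈ ℚ(X₀(N))` and its inverse lie in the chart algebra, and `τ`, `τi`
are series over `A` with `τ ↦ T` and `τ τi = 1`, then `τ` and `τi` are chart-integral. -/
theorem isIntFin_pair_of_mem_chartAlgFin {τ τi : LaurentSeries A} (hτu : τ * τi = 1)
    (x : ↥(modularFunctionFieldFull N))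
    (hx : coeffMap A.subtype τ = coeffEmb (AlgebraicClosure ℚ) (x : LaurentSeries ℚ))
    (hmem : x ∈ chartAlgFin N ℓ ∧ x⁻¹ ∈ chartAlgFin N ℓ) :
    IsIntFin ℓ A N τ ∧ IsIntFin ℓ A N τi := by
  constructor
  · show coeffMap A.subtype τ ∈ chartSpan ℓ A N {jFull N}
    rw [hx]
    exact Submodule.subset_span ⟨⟨x, hmem.1⟩, rfl⟩
  · show coeffMap A.subtype τi ∈ chartSpan ℓ A N {jFull N}
    have h1 := congrArg (coeffMap A.subtype) hτu
    rw [map_mul, map_one, hx] at h1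
    have h2 : coeffMap A.subtype τi =
        coeffEmb (AlgebraicClosure ℚ) ((x⁻¹ : ↥(modularFunctionFieldFull N)) : LaurentSeries ℚ) := by
      rw [IntermediateField.coe_inv, map_inv₀]
      exact eq_inv_of_mul_eq_one_right h1
    rw [h2]
    exact Submodule.subset_span ⟨⟨x⁻¹, hmem.2⟩, rfl⟩

theorem coeffMap_subtype_hauptT2 :
    coeffMap A.subtype (hauptT2 A) = coeffEmb (AlgebraicClosure ℚ) (hauptT2 ℚ) := by
  show (hauptT2 A).map A.subtype = (hauptT2 ℚ).map (algebraMap ℚ (AlgebraicClosure ℚ))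
  rw [hauptT2_map, hauptT2_map]

theorem coeffMap_subtype_hauptT3 :
    coeffMap A.subtype (hauptT3 A) = coeffEmb (AlgebraicClosure ℚ) (hauptT3 ℚ) := by
  show (hauptT3 A).map A.subtype = (hauptT3 ℚ).map (algebraMap ℚ (AlgebraicClosure ℚ))
  rw [hauptT3_map, hauptT3_map]

/-! ### Case A, `r = 2` -/

/-- **CASE A, `2 ∣ N`**: the frozen statement `thmT_fin` at every level `N` divisible by `2`. -/
theorem thmT_fin_of_two_dvd (h2 : 2 ∣ N) (hℓN : ¬ ℓ ∣ N) (hA : A.LiesOverPrime ℓ) (f : Ft A N)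
    (hf : IsIntegral (Algebra.adjoin (IsLocalRing.ResidueField A) {jt A N}) f) :
    ∃ y : LaurentSeries A, IsIntFin ℓ A N y ∧
      coeffMap (IsLocalRing.residue A) y = (f : LaurentSeries (IsLocalRing.ResidueField A)) := by
  have hℓ : Nat.Prime ℓ := Fact.out
  have hℓ2 : ℓ ≠ 2 := fun h => hℓN (h ▸ h2)
  have hcop : Nat.Coprime 2 ℓ := by
    rw [Nat.coprime_comm, hℓ.coprime_iff_not_dvd]
    intro hd
    exact hℓ2 ((Nat.prime_dvd_prime_iff_eq hℓ Nat.prime_two).mp hd)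
  obtain ⟨u, hu⟩ := hauptT2_isUnit A
  have hτu : hauptT2 A * ((u⁻¹ : (LaurentSeries A)ˣ) : LaurentSeries A) = 1 := by
    rw [← hu]; exact u.mul_inv
  obtain ⟨hτ, hτi⟩ := isIntFin_pair_of_mem_chartAlgFin (ℓ := ℓ) (N := N) hτu
    ⟨hauptT2 ℚ, hauptT2_mem_full N h2⟩ coeffMap_subtype_hauptT2
    (hauptT2_mem_chartAlgFin ℓ hℓ2 N _ rfl)
  have hP : ((X + C (256 : A)) ^ 3 : A[X]).Monic := (monic_X_add_C _).pow 3
  have hdegP : ((X + C (256 : A)) ^ 3 : A[X]).natDegree = 3 := by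
    rw [natDegree_pow, natDegree_X_add_C]
  have hP0 : IsUnit (((X + C (256 : A)) ^ 3 : A[X]).coeff 0) := by
    rw [coeff_zero_eq_eval_zero, eval_pow, eval_add, eval_X, eval_C, zero_add]
    have h256 : (256 : A) = ((2 : ℕ) : A) ^ 8 := by norm_num
    rw [h256]
    exact ((isUnit_natCast_of_coprime hA 2 hcop).pow 8).pow 3
  refine chart_caseA hℓN hA hτ hτi hτu ((X + C (256 : A)) ^ 3) hP 2 (by norm_num)
    (by rw [hdegP]; norm_num) hP0 ?_ ?_ f hf
  · rw [eval₂_pow, eval₂_add, eval₂_X, eval₂_C, map_ofNat]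
    exact hauptT2_jq A
  · intro t ht
    have hrel : jb N * t ^ 2 = (t + 256) ^ 3 := by
      apply Subtype.ext
      have h := congrArg (coeffMap A.subtype) (hauptT2_jq A)
      rw [map_mul, map_pow, map_pow, map_add, map_ofNat, ← ht, ← coe_jb (A := A) (N := N)] at h
      exact h
    refine ⟨-64, fun a ha0 ha => ?_⟩
    refine Fermat.Agent.S18.CH04582.modular_unbranchedL_t2 (N := N) hrel
      (a : AlgebraicClosure ℚ) ha0 (fun h => ha (Subtype.ext ?_))
    rw [h]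
    push_cast
    rfl

/-! ### Case A, `r = 3` -/

/-- **CASE A, `3 ∣ N`**: the frozen statement `thmT_fin` at every level `N` divisible by `3`. -/
theorem thmT_fin_of_three_dvd (h3 : 3 ∣ N) (hℓN : ¬ ℓ ∣ N) (hA : A.LiesOverPrime ℓ) (f : Ft A N)
    (hf : IsIntegral (Algebra.adjoin (IsLocalRing.ResidueField A) {jt A N}) f) :
    ∃ y : LaurentSeries A, IsIntFin ℓ A N y ∧
      coeffMap (IsLocalRing.residue A) y = (f : LaurentSeries (IsLocalRing.ResidueField A)) := by
  have hℓ : Nat.Prime ℓ := Fact.out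
  have hℓ3 : ℓ ≠ 3 := fun h => hℓN (h ▸ h3)
  have hcop : Nat.Coprime 3 ℓ := by
    rw [Nat.coprime_comm, hℓ.coprime_iff_not_dvd]
    intro hd
    exact hℓ3 ((Nat.prime_dvd_prime_iff_eq hℓ Nat.prime_three).mp hd)
  obtain ⟨u, hu⟩ := hauptT3_isUnit A
  have hτu : hauptT3 A * ((u⁻¹ : (LaurentSeries A)ˣ) : LaurentSeries A) = 1 := by
    rw [← hu]; exact u.mul_inv
  obtain ⟨hτ, hτi⟩ := isIntFin_pair_of_mem_chartAlgFin (ℓ := ℓ) (N := N) hτu
    ⟨hauptT3 ℚ, hauptT3_mem_full N h3⟩ coeffMap_subtype_hauptT3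
    (hauptT3_mem_chartAlgFin ℓ hℓ3 N _ rfl)
  have hP : ((X + C (27 : A)) * (X + C (243 : A)) ^ 3 : A[X]).Monic :=
    (monic_X_add_C _).mul ((monic_X_add_C _).pow 3)
  have hdegP : ((X + C (27 : A)) * (X + C (243 : A)) ^ 3 : A[X]).natDegree = 4 := by
    rw [((monic_X_add_C (27 : A))).natDegree_mul ((monic_X_add_C (243 : A)).pow 3),
      natDegree_pow, natDegree_X_add_C, natDegree_X_add_C]
  have hP0 : IsUnit (((X + C (27 : A)) * (X + C (243 : A)) ^ 3 : A[X]).coeff 0) := by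
    rw [coeff_zero_eq_eval_zero, eval_mul, eval_pow, eval_add, eval_add, eval_X, eval_C, eval_C,
      zero_add, zero_add]
    have h27 : (27 : A) = ((3 : ℕ) : A) ^ 3 := by norm_num
    have h243 : (243 : A) = ((3 : ℕ) : A) ^ 5 := by norm_num
    rw [h27, h243]
    exact ((isUnit_natCast_of_coprime hA 3 hcop).pow 3).mul
      (((isUnit_natCast_of_coprime hA 3 hcop).pow 5).pow 3)
  refine chart_caseA hℓN hA hτ hτi hτu ((X + C (27 : A)) * (X + C (243 : A)) ^ 3) hP 3
    (by norm_num) (by rw [hdegP]; norm_num) hP0 ?_ ?_ f hf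
  · rw [eval₂_mul, eval₂_pow, eval₂_add, eval₂_add, eval₂_X, eval₂_C, eval₂_C, map_ofNat,
      map_ofNat]
    exact hauptT3_jq A
  · intro t ht
    have hrel : jb N * t ^ 3 = (t + 27) * (t + 243) ^ 3 := by
      apply Subtype.ext
      have h := congrArg (coeffMap A.subtype) (hauptT3_jq A)
      rw [map_mul, map_pow, map_mul, map_pow, map_add, map_add, map_ofNat, map_ofNat, ← ht,
        ← coe_jb (A := A) (N := N)] at h
      exact h
    refine ⟨-27, fun a ha0 ha => ?_⟩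
    refine Fermat.Agent.S18.CH04582.modular_unbranchedL_t3 (N := N) hrel
      (a : AlgebraicClosure ℚ) ha0 (fun h => ha (Subtype.ext ?_))
    rw [h]
    push_cast
    rfl

end Fermat.Agent.S18.T6466
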