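import Fermat.Agent.S18.TInt
import Fermat.Agent.S24.A564.LocalDiff

/-!
# S18 / T (helper6466): the chart `K[x, 1/x]` in the language of places

Bridge `Place` ⟹ `UnbranchedL` (the analogue for the chart `K[x, 1/x]` of `unbranched_of_ord` of
`TInt.lean`), from the frozen statements of `RT.lean`:

* `mem_valuationSubring_of_isIntegral` : integral over `K[S]`, `S ⊆ O_v` ⟹ in `O_v`;
* `ord_nonneg_of_isIntegral_pair`  : integral over `K[x, 1/x]` ⟹ regular at the places with `ord x = 0`;
* `isIntegral_pair_of_ord_nonneg`  : the converse;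
* `unbranchedL_of_ord`             : if every place over `x = a` is unramified, then `a` is not a
  branch value for the chart `K[x, 1/x]`.
-/

set_option autoImplicit false

namespace Fermat.Agent.S18.T6466

open AlgebraicCurve IntermediateField

variable {K F : Type*} [Field K] [Field F] [Algebra K F]

/-- Elements integral over `K[S]`, `S ⊆ O_v`, lie in the valuation ring `O_v`. -/
theorem mem_valuationSubring_of_isIntegral (v : Place K F) (S : Set F)
    (hS : ∀ s ∈ S, s ∈ v.toValuationSubring) (z : F)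
    (hz : IsIntegral (Algebra.adjoin K S) z) : z ∈ v.toValuationSubring := by
  let O : Subalgebra K F :=
    { v.toValuationSubring.toSubring with algebraMap_mem' := v.algebraMap_mem' }
  have hle : Algebra.adjoin K S ≤ O := Algebra.adjoin_le hS
  let φ : Algebra.adjoin K S →+* v.toValuationSubring :=
    ((Algebra.adjoin K S).val : Algebra.adjoin K S →+* F).codRestrict
      v.toValuationSubring.toSubring (fun a => hle a.2)
  have hz' : IsIntegral v.toValuationSubring z :=
    hz.map_of_comp_eq φ (RingHom.id F) (by ext; rfl)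
  obtain ⟨y, hy⟩ := IsIntegrallyClosed.isIntegral_iff.mp hz'
  rw [← hy]
  exact y.2

theorem ord_nonneg_of_isIntegral_pair (v : Place K F) (x : F) (hx : v.ord x = 0) (z : F)
    (hz : IsIntegral (Algebra.adjoin K {x, x⁻¹}) z) : 0 ≤ v.ord z := by
  by_cases hz0 : z = 0
  · rw [hz0, Place.ord_zero]
  by_cases hx0 : x = 0
  · -- then `K[x, 1/x] = K`
    rw [Fermat.Agent.S24.A564.LD.ord_nonneg_iff v hz0]
    refine mem_valuationSubring_of_isIntegral v _ ?_ z hz
    rintro s (rfl | rfl)
    · rw [hx0]; exact zero_mem _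
    · rw [hx0, inv_zero]; exact zero_mem _
  rw [Fermat.Agent.S24.A564.LD.ord_nonneg_iff v hz0]
  refine mem_valuationSubring_of_isIntegral v _ ?_ z hz
  rintro s (rfl | rfl)
  · rw [← Fermat.Agent.S24.A564.LD.ord_nonneg_iff v hx0, hx]
  · rw [← Fermat.Agent.S24.A564.LD.ord_nonneg_iff v (inv_ne_zero hx0), Place.ord_inv, hx, neg_zero]

section RT

variable [IsAlgClosed K] (x : F) (hx : Transcendental K x) [FiniteDimensional K⟮x⟯ F]
  [Algebra.IsSeparable K⟮x⟯ F]

include hx

/-- A function regular at all places with `ord x = 0` is integral over `K[x, 1/x]`. -/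
theorem isIntegral_pair_of_ord_nonneg (z : F)
    (h : ∀ P : Place K F, P.ord x = 0 → 0 ≤ P.ord z) :
    IsIntegral (Algebra.adjoin K {x, x⁻¹}) z := by
  by_cases hz0 : z = 0
  · rw [hz0]; exact isIntegral_zero
  obtain ⟨D, hD⟩ := rt_exists_divisor x hx z hz0
  let M : ℕ := D.support.sup (fun P => (-(D P)).toNat)
  have hM : ∀ P : Place K F, -(P.ord z) ≤ M := by
    intro P
    by_cases hP : P ∈ D.support
    · have h1 := Finset.le_sup (f := fun P => (-(D P)).toNat) hP
      have h2 := Int.self_le_toNat (-(D P))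
      rw [← hD P]
      have h3 : ((-(D P)).toNat : ℤ) ≤ (M : ℤ) := by exact_mod_cast h1
      omega
    · have h1 : D P = 0 := Finsupp.notMem_support_iff.mp hP
      rw [← hD P, h1]
      simp
  have hx0 : x ≠ 0 := fun h0 => hx (h0 ▸ isAlgebraic_zero)
  have h1 : IsIntegral (Algebra.adjoin K {x}) (x ^ M * z) := by
    refine rt_isIntegral_of_ord_nonneg x hx _ fun P hP => ?_
    rw [Place.ord_mul _ (pow_ne_zero M hx0) hz0, ← zpow_natCast, Place.ord_zpow]
    rcases hP.eq_or_lt with hP | hP
    · rw [← hP, mul_zero, zero_add]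
      exact h P hP.symm
    · have h2 := hM P
      nlinarith
  have hle : Algebra.adjoin K {x} ≤ Algebra.adjoin K {x, x⁻¹} :=
    Algebra.adjoin_mono (by simp)
  have h2 : IsIntegral (Algebra.adjoin K {x, x⁻¹}) (x ^ M * z) :=
    h1.map_of_comp_eq (Subalgebra.inclusion hle).toRingHom (RingHom.id F) (by ext; rfl)
  have h3 : IsIntegral (Algebra.adjoin K {x, x⁻¹}) (x⁻¹ ^ M) :=
    (isIntegral_algebraMap
      (x := (⟨x⁻¹, Algebra.subset_adjoin (by simp)⟩ : Algebra.adjoin K {x, x⁻¹}))).pow M
  have e : z = x⁻¹ ^ M * (x ^ M * z) := by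
    rw [← mul_assoc, ← mul_pow, inv_mul_cancel₀ hx0, one_pow, one_mul]
  rw [e]
  exact h3.mul h2

/-- If every place over `x = a` is unramified (`ord (x - a) = 1`), then `a` is not a branch value
of the chart `K[x, 1/x]`. -/
theorem unbranchedL_of_ord (a : K)
    (h : ∀ v : Place K F, 0 < v.ord (x - algebraMap K F a) → v.ord (x - algebraMap K F a) = 1) :
    UnbranchedL K x a := by
  intro z hz hz2
  by_cases hz0 : z = 0
  · rw [hz0, zero_div]
    exact isIntegral_zero
  have hw0 : x - algebraMap K F a ≠ 0 := by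
    intro h0
    apply hx
    rw [sub_eq_zero] at h0
    rw [h0]
    exact isAlgebraic_algebraMap a
  have hwint : IsIntegral (Algebra.adjoin K {x, x⁻¹}) (x - algebraMap K F a) := by
    have hmem : x - algebraMap K F a ∈ Algebra.adjoin K {x, x⁻¹} :=
      Subalgebra.sub_mem _ (Algebra.subset_adjoin (by simp)) (Subalgebra.algebraMap_mem _ a)
    exact isIntegral_algebraMap (x := (⟨_, hmem⟩ : Algebra.adjoin K {x, x⁻¹}))
  refine isIntegral_pair_of_ord_nonneg x hx _ fun P hP => ?_
  have h1 := ord_nonneg_of_isIntegral_pair P x hP z hz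
  have h2 := ord_nonneg_of_isIntegral_pair P x hP _ hz2
  have h3 := ord_nonneg_of_isIntegral_pair P x hP _ hwint
  have hinv : (x - algebraMap K F a)⁻¹ ≠ 0 := inv_ne_zero hw0
  rw [div_eq_mul_inv, Place.ord_mul _ (pow_ne_zero 2 hz0) hinv, Place.ord_inv, sq,
    Place.ord_mul _ hz0 hz0] at h2
  rw [div_eq_mul_inv, Place.ord_mul _ hz0 hinv, Place.ord_inv]
  rcases h3.eq_or_lt with h3 | h3
  · rw [← h3]; simpa using h1
  · have := h P h3
    omega

end RT

end Fermat.Agent.S18.T6466
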