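import Mathlib

/-!
# S18 / T (helper6466): the degree of `K(τ)` over `K(ξ)` for `ξ = P(τ)/τ^r`

Generic field theory, Mathlib only, ANY characteristic.  `τ ∈ F` transcendental over `K`,
`ξ τ^r = P(τ)` with `P ∈ K[X]` monic of degree `n > r` and `P(0) ≠ 0`.  Then

* `isIntegral_of_rel`      : `τ` is integral over `K(ξ)`;
* `natDegree_minpoly_of_rel` : the minimal polynomial of `τ` over `K(ξ)` has degree `n`;
* `finrank_of_rel`         : `[F : K(ξ)] = n · [F : K(τ)]`.

Used for the `t`-line of the Hauptmoduln `t₂, t₃` (`j t² = (t+256)³`, `j t³ = (t+27)(t+243)³`) in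
characteristic `0` AND in characteristic `ℓ` (Theorem T, case A).
-/

set_option autoImplicit false

namespace Fermat.Agent.S18.T6466

open Polynomial IntermediateField

section Hom

variable {R : Type*} [CommRing R]

/-- Homogenisation: `hom P r d c` is the polynomial `X^(r d) · c(P / X^r)`, for `deg c ≤ d`. -/
noncomputable def hom (P : R[X]) (r d : ℕ) (c : R[X]) : R[X] :=
  ∑ m ∈ Finset.range (d + 1), C (c.coeff m) * P ^ m * X ^ (r * (d - m))

theorem hom_zero (P : R[X]) (r : ℕ) (c : R[X]) : hom P r 0 c = C (c.coeff 0) := by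
  simp [hom]

theorem hom_succ (P : R[X]) (r d : ℕ) (c : R[X]) :
    hom P r (d + 1) c = C (c.coeff 0) * X ^ (r * (d + 1)) + P * hom P r d c.divX := by
  rw [hom, Finset.sum_range_succ', hom, Finset.mul_sum, add_comm]
  congr 1
  · simp
  · refine Finset.sum_congr rfl fun m _ => ?_
    rw [coeff_divX, Nat.add_sub_add_right, pow_succ]
    ring

/-- If `ξ τ^r = P(τ)` then `hom P r d c (τ) = τ^(r d) · c(ξ)` (evaluation along `φ : R → S`). -/
theorem eval₂_hom {S : Type*} [CommRing S] (φ : R →+* S) (ξ τ : S) (P : R[X]) (r : ℕ)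
    (hrel : ξ * τ ^ r = P.eval₂ φ τ) (d : ℕ) (c : R[X]) (hc : c.natDegree ≤ d) :
    (hom P r d c).eval₂ φ τ = τ ^ (r * d) * c.eval₂ φ ξ := by
  rw [hom, eval₂_finsetSum, eval₂_eq_sum_range' φ (Nat.lt_succ_of_le hc), Finset.mul_sum]
  refine Finset.sum_congr rfl fun m hm => ?_
  have hm' : m ≤ d := Nat.lt_succ_iff.mp (Finset.mem_range.mp hm)
  have e : r * d = r * m + r * (d - m) := by
    rw [← Nat.mul_add, Nat.add_sub_cancel' hm']
  rw [eval₂_mul, eval₂_mul, eval₂_C, eval₂_pow, eval₂_pow, eval₂_X, ← hrel, e]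
  ring

theorem aeval_hom {F : Type*} [CommRing F] [Algebra R F] (ξ τ : F) (P : R[X]) (r : ℕ)
    (hrel : ξ * τ ^ r = aeval τ P) (d : ℕ) (c : R[X]) (hc : c.natDegree ≤ d) :
    aeval τ (hom P r d c) = τ ^ (r * d) * aeval ξ c := by
  rw [aeval_def, aeval_def]
  exact eval₂_hom (algebraMap R F) ξ τ P r (by rw [← aeval_def]; exact hrel) d c hc

end Hom

section Core

variable {K : Type*} [Field K]

theorem isCoprime_X_of_coeff_zero_ne_zero (P : K[X]) (hP0 : P.coeff 0 ≠ 0) : IsCoprime P X := by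
  refine ⟨C (P.coeff 0)⁻¹, -(C (P.coeff 0)⁻¹ * P.divX), ?_⟩
  have h := P.divX_mul_X_add
  have h1 : C (P.coeff 0)⁻¹ * C (P.coeff 0) = (1 : K[X]) := by
    rw [← C_mul, inv_mul_cancel₀ hP0, C_1]
  calc C (P.coeff 0)⁻¹ * P + -(C (P.coeff 0)⁻¹ * P.divX) * X
      = C (P.coeff 0)⁻¹ * (P - P.divX * X) := by ring
    _ = C (P.coeff 0)⁻¹ * C (P.coeff 0) := by
        congr 1
        nth_rw 1 [← h]
        ring
    _ = 1 := h1

theorem coeff_sum_C_mul_X_pow (n : ℕ) (a : ℕ → K) (j : ℕ) (hj : j < n) :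
    (∑ i ∈ Finset.range n, C (a i) * X ^ i : K[X]).coeff j = a j := by
  rw [finsetSum_coeff]
  simp only [coeff_C_mul_X_pow]
  rw [Finset.sum_eq_single j]
  · simp
  · intro b _ hb
    rw [if_neg (Ne.symm hb)]
  · intro h
    exact absurd (Finset.mem_range.mpr hj) h

/-- The polynomial core: if `∑_{i<n} hom_d(c_i) X^i = 0` with `deg c_i ≤ d`, `n = deg P`, `P` prime to
`X`, then all `c_i` vanish. -/
theorem core_poly (P : K[X]) (hP : P.Monic) (r : ℕ) (hn : 0 < P.natDegree)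
    (hP0 : P.coeff 0 ≠ 0) :
    ∀ (d : ℕ) (c : ℕ → K[X]), (∀ i < P.natDegree, (c i).natDegree ≤ d) →
      ∑ i ∈ Finset.range P.natDegree, hom P r d (c i) * X ^ i = 0 →
      ∀ i < P.natDegree, c i = 0 := by
  intro d
  induction d with
  | zero =>
    intro c hc h i hi
    simp only [hom_zero] at h
    have h0 : (c i).coeff 0 = 0 := by
      have := coeff_sum_C_mul_X_pow P.natDegree (fun i => (c i).coeff 0) i hi
      rw [h, coeff_zero] at this
      exact this.symm
    rw [eq_C_of_natDegree_le_zero (hc i hi), h0, C_0]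
  | succ d ih =>
    intro c hc h i hi
    simp only [hom_succ, add_mul] at h
    rw [Finset.sum_add_distrib] at h
    set R : K[X] := ∑ i ∈ Finset.range P.natDegree, C ((c i).coeff 0) * X ^ i with hR
    set S : K[X] := ∑ i ∈ Finset.range P.natDegree, hom P r d (c i).divX * X ^ i with hS
    have e1 : ∑ i ∈ Finset.range P.natDegree, C ((c i).coeff 0) * X ^ (r * (d + 1)) * X ^ i
        = X ^ (r * (d + 1)) * R := by
      rw [hR, Finset.mul_sum]
      exact Finset.sum_congr rfl fun i _ => by ring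
    have e2 : ∑ i ∈ Finset.range P.natDegree, P * hom P r d (c i).divX * X ^ i = P * S := by
      rw [hS, Finset.mul_sum]
      exact Finset.sum_congr rfl fun i _ => by ring
    rw [e1, e2] at h
    have hdvd : P ∣ X ^ (r * (d + 1)) * R := by
      refine ⟨-S, ?_⟩
      linear_combination h
    have hcop : IsCoprime P (X ^ (r * (d + 1))) :=
      (isCoprime_X_of_coeff_zero_ne_zero P hP0).pow_right
    have hdvdR : P ∣ R := hcop.dvd_of_dvd_mul_left hdvd
    have hRdeg : R.natDegree < P.natDegree := by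
      have : R.natDegree ≤ P.natDegree - 1 := by
        refine natDegree_sum_le_of_forall_le _ _ fun i hi => ?_
        exact (natDegree_C_mul_X_pow_le _ _).trans
          (Nat.le_sub_one_of_lt (Finset.mem_range.mp hi))
      omega
    have hR0 : R = 0 := eq_zero_of_dvd_of_natDegree_lt hdvdR hRdeg
    have hS0 : S = 0 := by
      rw [hR0, mul_zero, zero_add] at h
      exact (mul_eq_zero.mp h).resolve_left hP.ne_zero
    have hc0 : (c i).coeff 0 = 0 := by
      have := coeff_sum_C_mul_X_pow P.natDegree (fun i => (c i).coeff 0) i hi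
      rw [← hR, hR0, coeff_zero] at this
      exact this.symm
    have hdiv : (c i).divX = 0 := by
      refine ih (fun i => (c i).divX) (fun i hi => ?_) hS0 i hi
      rw [natDegree_divX_eq_natDegree_tsub_one]
      have := hc i hi
      omega
    have := (c i).divX_mul_X_add
    rw [hdiv, hc0, zero_mul, C_0, add_zero] at this
    exact this.symm

end Core

section Field

variable {K F : Type*} [Field K] [Field F] [Algebra K F]

/-- `1, τ, …, τ^(n-1)` are linearly independent over `K[ξ]` (polynomial form). -/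
theorem core_field (ξ τ : F) (hτ : Transcendental K τ) (P : K[X]) (hP : P.Monic) (r : ℕ)
    (hr : r < P.natDegree) (hP0 : P.coeff 0 ≠ 0) (hrel : ξ * τ ^ r = aeval τ P)
    (c : ℕ → K[X]) (h : ∑ i ∈ Finset.range P.natDegree, aeval ξ (c i) * τ ^ i = 0) :
    ∀ i < P.natDegree, c i = 0 := by
  set d := (Finset.range P.natDegree).sup (fun i => (c i).natDegree) with hd
  have hcd : ∀ i < P.natDegree, (c i).natDegree ≤ d := fun i hi =>
    Finset.le_sup (f := fun i => (c i).natDegree) (Finset.mem_range.mpr hi)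
  refine core_poly P hP r (by omega) hP0 d c hcd ?_
  by_contra hne
  refine hτ ⟨_, hne, ?_⟩
  rw [map_sum]
  have e : ∑ i ∈ Finset.range P.natDegree, aeval τ (hom P r d (c i) * X ^ i)
      = τ ^ (r * d) * ∑ i ∈ Finset.range P.natDegree, aeval ξ (c i) * τ ^ i := by
    rw [Finset.mul_sum]
    refine Finset.sum_congr rfl fun i hi => ?_
    rw [map_mul, map_pow, aeval_X,
      aeval_hom ξ τ P r hrel d (c i) (hcd i (Finset.mem_range.mp hi))]
    ring
  rw [e, h, mul_zero]

/-- Common denominators in `K(ξ)`. -/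
theorem exists_common_denom (ξ : F) (q : ℕ → K⟮ξ⟯) (n : ℕ) :
    ∃ b : K[X], aeval ξ b ≠ 0 ∧ ∀ i < n, ∃ c : K[X], (q i : F) * aeval ξ b = aeval ξ c := by
  induction n with
  | zero => exact ⟨1, by simp, fun i hi => absurd hi (Nat.not_lt_zero i)⟩
  | succ n ih =>
    obtain ⟨b, hb, hc⟩ := ih
    obtain ⟨a', b', hab⟩ := (IntermediateField.mem_adjoin_simple_iff K _).mp (q n).2
    by_cases hb' : aeval ξ b' = 0
    · have hq : (q n : F) = 0 := by rw [hab, hb', div_zero]
      refine ⟨b, hb, fun i hi => ?_⟩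
      rcases Nat.lt_succ_iff_lt_or_eq.mp hi with hi | rfl
      · exact hc i hi
      · exact ⟨0, by rw [hq, zero_mul, map_zero]⟩
    · refine ⟨b * b', by rw [map_mul]; exact mul_ne_zero hb hb', fun i hi => ?_⟩
      rcases Nat.lt_succ_iff_lt_or_eq.mp hi with hi | rfl
      · obtain ⟨c, hc⟩ := hc i hi
        exact ⟨c * b', by rw [map_mul, map_mul, ← mul_assoc, hc]⟩
      · refine ⟨a' * b, ?_⟩
        rw [map_mul, map_mul, hab]
        field_simp

/-- A polynomial over `K(ξ)` of degree `< n` vanishing at `τ` is zero. -/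
theorem eq_zero_of_aeval_eq_zero (ξ τ : F) (hτ : Transcendental K τ) (P : K[X]) (hP : P.Monic)
    (r : ℕ) (hr : r < P.natDegree) (hP0 : P.coeff 0 ≠ 0) (hrel : ξ * τ ^ r = aeval τ P)
    (Q : K⟮ξ⟯[X]) (hQ : Q.natDegree < P.natDegree) (h : aeval τ Q = 0) : Q = 0 := by
  obtain ⟨b, hb, hc⟩ := exists_common_denom ξ (fun i => Q.coeff i) P.natDegree
  choose! c hc using hc
  have hQe : aeval τ Q = ∑ i ∈ Finset.range P.natDegree, ((Q.coeff i : K⟮ξ⟯) : F) * τ ^ i := by
    rw [aeval_eq_sum_range' hQ]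
    refine Finset.sum_congr rfl fun i _ => ?_
    rw [Algebra.smul_def]
    rfl
  have hsum : ∑ i ∈ Finset.range P.natDegree, aeval ξ (c i) * τ ^ i = 0 := by
    have e : ∑ i ∈ Finset.range P.natDegree, aeval ξ (c i) * τ ^ i
        = aeval ξ b * ∑ i ∈ Finset.range P.natDegree, ((Q.coeff i : K⟮ξ⟯) : F) * τ ^ i := by
      rw [Finset.mul_sum]
      refine Finset.sum_congr rfl fun i hi => ?_
      rw [← hc i (Finset.mem_range.mp hi)]
      ring
    rw [e, ← hQe, h, mul_zero]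
  have hc0 := core_field ξ τ hτ P hP r hr hP0 hrel c hsum
  refine Polynomial.ext fun i => ?_
  rw [coeff_zero]
  by_cases hi : i < P.natDegree
  · have h1 := hc i hi
    rw [hc0 i hi, map_zero] at h1
    have h0 : ((Q.coeff i : K⟮ξ⟯) : F) = 0 := (mul_eq_zero.mp h1).resolve_right hb
    exact ZeroMemClass.coe_eq_zero.mp h0
  · exact coeff_eq_zero_of_natDegree_lt (lt_of_lt_of_le hQ (not_lt.mp hi))

/-- The polynomial `P(X) - ξ X^r` over `K(ξ)`. -/
noncomputable def relPoly (ξ : F) (P : K[X]) (r : ℕ) : K⟮ξ⟯[X] :=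
  P.map (algebraMap K K⟮ξ⟯) - C (⟨ξ, mem_adjoin_simple_self K ξ⟩ : K⟮ξ⟯) * X ^ r

theorem relPoly_monic (ξ : F) (P : K[X]) (hP : P.Monic) (r : ℕ) (hr : r < P.natDegree) :
    (relPoly ξ P r).Monic := by
  refine (hP.map _).sub_of_left ?_
  rw [degree_eq_natDegree (hP.map (algebraMap K K⟮ξ⟯)).ne_zero, hP.natDegree_map]
  refine lt_of_le_of_lt (degree_C_mul_X_pow_le r _) ?_
  exact_mod_cast hr

theorem relPoly_natDegree (ξ : F) (P : K[X]) (hP : P.Monic) (r : ℕ) (hr : r < P.natDegree) :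
    (relPoly ξ P r).natDegree = P.natDegree := by
  rw [relPoly, natDegree_sub_eq_left_of_natDegree_lt, hP.natDegree_map]
  rw [hP.natDegree_map]
  exact lt_of_le_of_lt (natDegree_C_mul_X_pow_le _ _) hr

theorem aeval_relPoly (ξ τ : F) (P : K[X]) (r : ℕ) (hrel : ξ * τ ^ r = aeval τ P) :
    aeval τ (relPoly ξ P r) = 0 := by
  rw [relPoly, map_sub, aeval_map_algebraMap, map_mul, aeval_C, map_pow, aeval_X, ← hrel]
  exact sub_self _

theorem isIntegral_of_rel (ξ τ : F) (P : K[X]) (hP : P.Monic) (r : ℕ) (hr : r < P.natDegree)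
    (hrel : ξ * τ ^ r = aeval τ P) : IsIntegral K⟮ξ⟯ τ :=
  ⟨relPoly ξ P r, relPoly_monic ξ P hP r hr, aeval_relPoly ξ τ P r hrel⟩

/-- The minimal polynomial of `τ` over `K(ξ)` has degree `n = deg P`. -/
theorem natDegree_minpoly_of_rel (ξ τ : F) (hτ : Transcendental K τ) (P : K[X]) (hP : P.Monic)
    (r : ℕ) (hr : r < P.natDegree) (hP0 : P.coeff 0 ≠ 0) (hrel : ξ * τ ^ r = aeval τ P) :
    (minpoly K⟮ξ⟯ τ).natDegree = P.natDegree := by
  have hint := isIntegral_of_rel ξ τ P hP r hr hrel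
  apply le_antisymm
  · have := natDegree_le_natDegree
      (minpoly.min K⟮ξ⟯ τ (relPoly_monic ξ P hP r hr) (aeval_relPoly ξ τ P r hrel))
    rwa [relPoly_natDegree ξ P hP r hr] at this
  · by_contra hlt
    exact minpoly.ne_zero hint (eq_zero_of_aeval_eq_zero ξ τ hτ P hP r hr hP0 hrel _
      (not_le.mp hlt) (minpoly.aeval _ _))

theorem mem_adjoin_of_rel (ξ τ : F) (hτ0 : τ ≠ 0) (P : K[X]) (r : ℕ)
    (hrel : ξ * τ ^ r = aeval τ P) : ξ ∈ K⟮τ⟯ := by
  refine (IntermediateField.mem_adjoin_simple_iff K _).mpr ⟨P, X ^ r, ?_⟩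
  rw [map_pow, aeval_X, eq_div_iff (pow_ne_zero r hτ0)]
  exact hrel

/-- `[F : K(ξ)] = n · [F : K(τ)]`. -/
theorem finrank_of_rel (ξ τ : F) (hτ : Transcendental K τ) (P : K[X]) (hP : P.Monic)
    (r : ℕ) (hr : r < P.natDegree) (hP0 : P.coeff 0 ≠ 0) (hrel : ξ * τ ^ r = aeval τ P) :
    Module.finrank K⟮ξ⟯ F = P.natDegree * Module.finrank K⟮τ⟯ F := by
  have hint := isIntegral_of_rel ξ τ P hP r hr hrel
  have h1 : Module.finrank K⟮ξ⟯ K⟮ξ⟯⟮τ⟯ = P.natDegree := by
    rw [IntermediateField.adjoin.finrank hint,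
      natDegree_minpoly_of_rel ξ τ hτ P hP r hr hP0 hrel]
  have h2 : Module.finrank K⟮ξ⟯ K⟮ξ⟯⟮τ⟯ * Module.finrank K⟮ξ⟯⟮τ⟯ F = Module.finrank K⟮ξ⟯ F :=
    Module.finrank_mul_finrank K⟮ξ⟯ K⟮ξ⟯⟮τ⟯ F
  have h3 : (K⟮ξ⟯⟮τ⟯).restrictScalars K = K⟮τ⟯ := by
    rw [IntermediateField.adjoin_adjoin_left]
    apply le_antisymm
    · rw [adjoin_le_iff]
      rintro x (hx | hx)
      · rw [Set.mem_singleton_iff.mp hx]
        exact mem_adjoin_of_rel ξ τ (fun h => hτ (h ▸ isAlgebraic_zero)) P r hrel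
      · rw [Set.mem_singleton_iff.mp hx]
        exact mem_adjoin_simple_self K τ
    · exact IntermediateField.adjoin.mono K _ _ Set.subset_union_right
  have h4 : Module.finrank K⟮ξ⟯⟮τ⟯ F = Module.finrank K⟮τ⟯ F := by
    rw [← h3]
    rfl
  rw [← h2, h1, h4]

end Field

end Fermat.Agent.S18.T6466
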