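import Fermat.Agent.S18.TInt
import Fermat.Agent.S18.T6466.Degree
import Fermat.Agent.S18.T6466.ChartL
import Fermat.Agent.S18.HAUPT7666.LaurentClosure

/-!
# S18 / T (helper6466): CASE A of Theorem T, generic form  (`notes/S18_T_design.md` §G, case A)

Setting of `spec_poly` / `spec_laurent` (`TInt.lean`): a ring `𝒪` with `cst : A → 𝒪`, `gen : 𝒪 → F`,
`red : 𝒪 → E`, and a coordinate `ξ` (`= j`) satisfying the hypotheses of `spec_poly`.  Assume moreover
a UNIT `τ` of `𝒪` (`= t_r`) with `ξ τ^r = P(τ)`, `P ∈ A[X]` monic of degree `> r > 0`, `P(0) ∈ Aˣ`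
(`P = (X+256)³, r = 2`;  `P = (X+27)(X+243)³, r = 3`), such that the `τ`-line has at most ONE branch
value `a₀` among the nonzero points.  Then `red 𝒪` is integrally closed over `k[ξ̄]`:

  `caseA_generic : IsIntegral k[red ξ] f → ∃ y, red y = f`.

Proof: all hypotheses of `spec_laurent` for the coordinate `τ` follow from those for `ξ`
(transcendence, finiteness, separability, the degree `[E : k(τ̄)] = [F : L(τ)]` — via
`finrank_of_rel` in both characteristics —, finite generation over `A[τ, 1/τ]`, and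
"integral over `L[τ, 1/τ]` ⟺ integral over `L[ξ]`").  So `spec_laurent` applies at every point
`ā ≠ 0` of the `τ̄`-line; since `τ̄` is a unit of `red 𝒪`, the point `ā = 0` is harmless, and
`mem_range_of_forall_local` concludes.  No use of (F3), no second base.
-/

set_option autoImplicit false

namespace Fermat.Agent.S18.T6466

open Polynomial IntermediateField AlgebraicCurve

section Tower

variable {K F : Type*} [Field K] [Field F] [Algebra K F]

/-- If `j ∈ K(t)` and `F/K(j)` is finite then `F/K(t)` is finite. -/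
theorem finiteDimensional_of_mem_adjoin (j t : F) (hjt : j ∈ K⟮t⟯) [FiniteDimensional K⟮j⟯ F] :
    FiniteDimensional K⟮t⟯ F := by
  have hle : K⟮j⟯ ≤ K⟮t⟯ := adjoin_simple_le_iff.mpr hjt
  let _ : Algebra K⟮j⟯ K⟮t⟯ := (IntermediateField.inclusion hle).toRingHom.toAlgebra
  have : IsScalarTower K⟮j⟯ K⟮t⟯ F := IsScalarTower.of_algebraMap_eq (fun x => rfl)
  exact FiniteDimensional.right K⟮j⟯ K⟮t⟯ F

/-- If `j ∈ K(t)` and `F/K(j)` is separable then `F/K(t)` is separable. -/
theorem isSeparable_of_mem_adjoin (j t : F) (hjt : j ∈ K⟮t⟯) [Algebra.IsSeparable K⟮j⟯ F] :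
    Algebra.IsSeparable K⟮t⟯ F := by
  have hle : K⟮j⟯ ≤ K⟮t⟯ := adjoin_simple_le_iff.mpr hjt
  let _ : Algebra K⟮j⟯ K⟮t⟯ := (IntermediateField.inclusion hle).toRingHom.toAlgebra
  have : IsScalarTower K⟮j⟯ K⟮t⟯ F := IsScalarTower.of_algebraMap_eq (fun x => rfl)
  exact Algebra.isSeparable_tower_top_of_isSeparable K⟮j⟯ K⟮t⟯ F

/-- If `ξ = P(τ)/τ^r` is transcendental then so is `τ`. -/
theorem transcendental_of_rel (ξ τ : F) (hτ0 : τ ≠ 0) (P : K[X]) (r : ℕ)
    (hrel : ξ * τ ^ r = aeval τ P) (hξ : Transcendental K ξ) : Transcendental K τ := by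
  intro halg
  apply hξ
  have hmem := mem_adjoin_of_rel ξ τ hτ0 P r hrel
  have : Algebra.IsAlgebraic K K⟮τ⟯ := isAlgebraic_adjoin_simple halg.isIntegral
  have h := Algebra.IsAlgebraic.isAlgebraic (R := K) (⟨ξ, hmem⟩ : K⟮τ⟯)
  exact IntermediateField.isAlgebraic_iff.mp h

end Tower

section CaseA

variable {L : Type*} [Field L] [IsAlgClosed L] [CharZero L] (A : ValuationSubring L)
variable {F : Type*} [Field F] [Algebra L F]
variable {E : Type*} [Field E] [Algebra (IsLocalRing.ResidueField A) E]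
variable {𝒪 : Type*} [CommRing 𝒪]

omit [IsAlgClosed L] [CharZero L] in
/-- The relation `ξ τ^r = P(τ)` on the generic fibre. -/
theorem gen_rel (cst : A →+* 𝒪) (gen : 𝒪 →+* F)
    (hgen_cst : ∀ a : A, gen (cst a) = algebraMap L F (a : L)) (ξ τ : 𝒪) (P : A[X]) (r : ℕ)
    (hrel : ξ * τ ^ r = P.eval₂ cst τ) :
    gen ξ * gen τ ^ r = aeval (gen τ) (P.map A.subtype) := by
  rw [← map_pow, ← map_mul, hrel, Polynomial.hom_eval₂, aeval_def, eval₂_map]
  congr 1
  exact RingHom.ext hgen_cst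

omit [IsAlgClosed L] [CharZero L] in
/-- The relation `ξ τ^r = P(τ)` on the special fibre. -/
theorem red_rel (cst : A →+* 𝒪) (red : 𝒪 →+* E)
    (hred_cst : ∀ a : A, red (cst a) =
      algebraMap (IsLocalRing.ResidueField A) E (IsLocalRing.residue A a)) (ξ τ : 𝒪) (P : A[X])
    (r : ℕ) (hrel : ξ * τ ^ r = P.eval₂ cst τ) :
    red ξ * red τ ^ r = aeval (red τ) (P.map (IsLocalRing.residue A)) := by
  rw [← map_pow, ← map_mul, hrel, Polynomial.hom_eval₂, aeval_def, eval₂_map]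
  congr 1
  exact RingHom.ext hred_cst

/-- **CASE A of Theorem T, generic form.** -/
theorem caseA_generic [IsAlgClosed (IsLocalRing.ResidueField A)]
    (cst : A →+* 𝒪) (gen : 𝒪 →+* F) (red : 𝒪 →+* E)
    (hgen : Function.Injective gen)
    (hgen_cst : ∀ a : A, gen (cst a) = algebraMap L F (a : L))
    (hred_cst : ∀ a : A, red (cst a) =
      algebraMap (IsLocalRing.ResidueField A) E (IsLocalRing.residue A a))
    (ξ : 𝒪)
    (hxL : Transcendental L (gen ξ))
    (hxk : Transcendental (IsLocalRing.ResidueField A) (red ξ))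
    (hFfin : FiniteDimensional L⟮gen ξ⟯ F)
    (hEfin : FiniteDimensional (IsLocalRing.ResidueField A)⟮red ξ⟯ E)
    (hEsep : Algebra.IsSeparable (IsLocalRing.ResidueField A)⟮red ξ⟯ E)
    (hdeg : Module.finrank (IsLocalRing.ResidueField A)⟮red ξ⟯ E = Module.finrank L⟮gen ξ⟯ F)
    (hker : ∀ y : 𝒪, red y = 0 →
      ∃ c : A, c ∈ IsLocalRing.maximalIdeal A ∧ ∃ y' : 𝒪, y = cst c * y')
    (hfg : ∃ s : Finset 𝒪, ∀ y : 𝒪, ∃ p : 𝒪 → A[X], y = ∑ e ∈ s, (p e).eval₂ cst ξ * e)
    (hint : ∀ f : F, IsIntegral (Algebra.adjoin L {gen ξ}) f →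
      ∃ (c : L) (y : 𝒪), f = algebraMap L F c * gen y)
    (hfrac : ∀ f : E, ∃ y₁ y₂ : 𝒪, red y₂ ≠ 0 ∧ f * red y₂ = red y₁)
    (τ : 𝒪) (hτ : IsUnit τ) (P : A[X]) (hP : P.Monic) (r : ℕ) (hr0 : 0 < r)
    (hr : r < P.natDegree) (hP0 : IsUnit (P.coeff 0))
    (hrel : ξ * τ ^ r = P.eval₂ cst τ)
    (hbranch : ∃ a₀ : A, ∀ a : A, (a : L) ≠ 0 → a ≠ a₀ → UnbranchedL L (gen τ) (a : L))
    (f : E) (hf : IsIntegral (Algebra.adjoin (IsLocalRing.ResidueField A) {red ξ}) f) :
    ∃ y : 𝒪, red y = f := by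
  classical
  have hgτ : gen τ ≠ 0 := (hτ.map gen).ne_zero
  have hrτ : red τ ≠ 0 := (hτ.map red).ne_zero
  have relL := gen_rel A cst gen hgen_cst ξ τ P r hrel
  have relk := red_rel A cst red hred_cst ξ τ P r hrel
  have hPL : (P.map A.subtype).Monic := hP.map _
  have hPk : (P.map (IsLocalRing.residue A)).Monic := hP.map _
  have hnL : (P.map A.subtype).natDegree = P.natDegree := hP.natDegree_map _
  have hnk : (P.map (IsLocalRing.residue A)).natDegree = P.natDegree := hP.natDegree_map _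
  have hPL0 : (P.map A.subtype).coeff 0 ≠ 0 := by
    rw [coeff_map]; exact (hP0.map A.subtype).ne_zero
  have hPk0 : (P.map (IsLocalRing.residue A)).coeff 0 ≠ 0 := by
    rw [coeff_map]; exact (hP0.map (IsLocalRing.residue A)).ne_zero
  have hrL : r < (P.map A.subtype).natDegree := by rw [hnL]; exact hr
  have hrk : r < (P.map (IsLocalRing.residue A)).natDegree := by rw [hnk]; exact hr
  -- transcendence of `τ`
  have hτL : Transcendental L (gen τ) := transcendental_of_rel _ _ hgτ _ r relL hxL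
  have hτk : Transcendental (IsLocalRing.ResidueField A) (red τ) :=
    transcendental_of_rel _ _ hrτ _ r relk hxk
  have hmL : gen ξ ∈ L⟮gen τ⟯ := mem_adjoin_of_rel _ _ hgτ _ r relL
  have hmk : red ξ ∈ (IsLocalRing.ResidueField A)⟮red τ⟯ := mem_adjoin_of_rel _ _ hrτ _ r relk
  -- finiteness, separability
  have := hFfin
  have := hEfin
  have := hEsep
  have hFfin' : FiniteDimensional L⟮gen τ⟯ F := finiteDimensional_of_mem_adjoin _ _ hmL
  have hEfin' : FiniteDimensional (IsLocalRing.ResidueField A)⟮red τ⟯ E :=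
    finiteDimensional_of_mem_adjoin _ _ hmk
  have hEsep' : Algebra.IsSeparable (IsLocalRing.ResidueField A)⟮red τ⟯ E :=
    isSeparable_of_mem_adjoin _ _ hmk
  -- degrees
  have hdeg' : Module.finrank (IsLocalRing.ResidueField A)⟮red τ⟯ E
      = Module.finrank L⟮gen τ⟯ F := by
    have h1 := finrank_of_rel (gen ξ) (gen τ) hτL _ hPL r hrL hPL0 relL
    have h2 := finrank_of_rel (red ξ) (red τ) hτk _ hPk r hrk hPk0 relk
    rw [hnL] at h1
    rw [hnk] at h2
    have h3 : P.natDegree * Module.finrank (IsLocalRing.ResidueField A)⟮red τ⟯ E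
        = P.natDegree * Module.finrank L⟮gen τ⟯ F := by rw [← h1, ← h2, hdeg]
    exact Nat.eq_of_mul_eq_mul_left (by omega) h3
  -- finite generation over `A[τ, 1/τ]`
  have hfg' : ∃ s : Finset 𝒪, ∀ y : 𝒪, ∃ (m : ℕ) (p : 𝒪 → A[X]),
      τ ^ m * y = ∑ e ∈ s, (p e).eval₂ cst τ * e := by
    obtain ⟨s, hs⟩ := hfg
    refine ⟨s, fun y => ?_⟩
    obtain ⟨p, hp⟩ := hs y
    refine ⟨r * s.sup (fun e => (p e).natDegree),
      fun e => hom P r (s.sup (fun e => (p e).natDegree)) (p e), ?_⟩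
    rw [hp, Finset.mul_sum]
    refine Finset.sum_congr rfl fun e he => ?_
    rw [eval₂_hom cst ξ τ P r hrel _ (p e)
      (Finset.le_sup (f := fun e => (p e).natDegree) he), mul_assoc]
  -- integral closures
  have hint' : ∀ g : F, IsIntegral (Algebra.adjoin L {gen τ, (gen τ)⁻¹}) g →
      ∃ (c : L) (y : 𝒪), g = algebraMap L F c * gen y := fun g hg =>
    hint g ((HAUPT7666.isIntegral_adjoin_iff_isIntegral_adjoin_pair (gen τ) (gen ξ) _ hPL r hr0
      hrL (isUnit_iff_ne_zero.mpr hPL0) relL g).mpr hg)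
  have hf' : IsIntegral (Algebra.adjoin (IsLocalRing.ResidueField A) {red τ, (red τ)⁻¹}) f :=
    (HAUPT7666.isIntegral_adjoin_iff_isIntegral_adjoin_pair (red τ) (red ξ) _ hPk r hr0
      hrk (isUnit_iff_ne_zero.mpr hPk0) relk f).mp hf
  -- the local statements at the points `ā ≠ 0` of the `τ̄`-line
  have hloc : ∀ ab : IsLocalRing.ResidueField A, ab ≠ 0 →
      ∃ (s : (IsLocalRing.ResidueField A)[X]) (y : 𝒪),
        s.eval ab ≠ 0 ∧ Polynomial.aeval (red τ) s * f = red y := by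
    intro ab hab
    refine spec_laurent A cst gen red hgen hgen_cst hred_cst τ hτ hτL hτk hFfin' hEfin' hEsep'
      hdeg' hker hfg' hint' hfrac ab hab ?_ f hf'
    obtain ⟨a₀, ha₀⟩ := hbranch
    refine ⟨a₀, fun a ha hne => ha₀ a ?_ hne⟩
    intro h0
    apply hab
    have ha0 : a = 0 := Subtype.ext h0
    rw [← ha, ha0, map_zero]
  -- constants
  have hc : ∀ c : IsLocalRing.ResidueField A, ∃ y : 𝒪,
      red y = algebraMap (IsLocalRing.ResidueField A) E c := by
    intro c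
    obtain ⟨a, rfl⟩ := IsLocalRing.residue_surjective c
    exact ⟨cst a, hred_cst a⟩
  -- glue (the point `ā = 0` is harmless because `τ` is a unit)
  refine mem_range_of_forall_local red hc τ f fun ab => ?_
  by_cases hab : ab = 0
  · obtain ⟨s, y, hs, hy⟩ := hloc 1 one_ne_zero
    have hs0 : s ≠ 0 := by
      rintro rfl
      simp at hs
    obtain ⟨q, hq, hnd⟩ := exists_eq_pow_rootMultiplicity_mul_and_not_dvd s hs0 0
    obtain ⟨u, hu⟩ := hτ
    refine ⟨q, ((u⁻¹ : 𝒪ˣ) : 𝒪) ^ (s.rootMultiplicity 0) * y, ?_, ?_⟩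
    · rw [hab]
      intro h0
      exact hnd (dvd_iff_isRoot.mpr h0)
    · have hinv : red ((u⁻¹ : 𝒪ˣ) : 𝒪) * red τ = 1 := by
        rw [← map_mul, ← hu, Units.inv_mul, map_one]
      have e : Polynomial.aeval (red τ) s = red τ ^ (s.rootMultiplicity 0)
          * Polynomial.aeval (red τ) q := by
        conv_lhs => rw [hq]
        rw [map_mul, map_pow, map_sub, aeval_X, aeval_C, map_zero, sub_zero]
      rw [map_mul, map_pow, ← hy, e]
      calc Polynomial.aeval (red τ) q * f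
          = (red ((u⁻¹ : 𝒪ˣ) : 𝒪) * red τ) ^ (s.rootMultiplicity 0)
            * (Polynomial.aeval (red τ) q * f) := by rw [hinv, one_pow, one_mul]
        _ = red ((u⁻¹ : 𝒪ˣ) : 𝒪) ^ (s.rootMultiplicity 0)
            * (red τ ^ (s.rootMultiplicity 0) * Polynomial.aeval (red τ) q * f) := by ring
  · exact hloc ab hab

end CaseA

end Fermat.Agent.S18.T6466
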